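import Fermat.Agent.S56.Sel
import Fermat.Agent.S56.Tan.Dict

/-!
# S56 / DictS : lifts unramified outside `T` give classes in `H¹(lvlS T)`      key `S56/DICT-S` (~60 lines)

`dict_unram` : for `q ∉ T`, `P` over `q`, `i ∈ I_P`: `c i = 0`.  So `c (g * i) = adRho r0 g (c i) + c g = c g`; `S55.D.LC1_lvlS_of_inertia T c c.2.1 ..` : `c` is `LC1 (lvlS T)`, so `c ∈ Z1 (lvlS T)`, and
`infl1 T _ (H1.mk (lvlS T) _ ⟨c, _⟩) = H1.mk lvlQ _ c` (`rfl` / `S55.D.infl1_mk_aux` + `Subtype.ext`).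
-/

set_option autoImplicit false

open IsLocalRing Fermat.Agent.S53 Fermat.Agent.S55 ExtCitation

noncomputable section

namespace Fermat.Agent.S56

variable {𝒪 : Type} [CommRing 𝒪] [IsLocalRing 𝒪]
  {r0 : Gal →* GL (Fin 2) (ResidueField 𝒪)}

/-- [S56/DICT-S] -/
theorem mem_range_infl1_of_unram (T : Finset Nat.Primes) (c : ↥(Z1 lvlQ (adRho r0)))
    (ρ : GaloisRepAdic (Keps 𝒪)) (h : HasMatrix ρ (liftMat r0 (c : Gal → Ad0 (ResidueField 𝒪))))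
    (hur : ∀ q : Nat.Primes, q ∉ T → ρ.IsUnramifiedAt q) :
    H1.mk lvlQ (adRho r0) c ∈ (infl1 T (adRho r0)).range := by
  have hall : ∀ q : Nat.Primes, q ∉ T → ∀ B : ValuationSubring Qb, B.LiesOverPrime (q : ℕ) →
      ∀ i ∈ B.inertiaSubgroupIn ℚ, ∀ g,
        (c : Gal → Ad0 (ResidueField 𝒪)) (g * i) = (c : Gal → Ad0 (ResidueField 𝒪)) g := by
    intro q hq B hB i hi g
    have h2 := (dict_unram h (hur q hq) B hB i hi).2
    rw [c.2.2 g, h2, map_zero, zero_add]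
  have hcS := S55.D.LC1_lvlS_of_inertia T _ c.2.1 hall
  exact ⟨H1.mk _ _ ⟨c, hcS, c.2.2⟩, rfl⟩

end Fermat.Agent.S56
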