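import Fermat.Agent.S56.Defs
import Fermat.Agent.S56.Tan.Res
import Fermat.Agent.S55.E.Chi

/-!
# S56 / DictTop : the hypotheses of the statement in matrix form      (helper28, TOP)

`h0 : HasMatrixRes ρbar r0` translates
* `ρbar.factorsThroughFiniteLevel`  into `IsSm r0`,
* `(ofResidualGaloisRep ρbar).DetIsCyclotomic p` into `IsCycDet p r0`,
* `hsplit` into the splitting of the characteristic polynomials of the matrices `r0 σ`.
-/

set_option autoImplicit false

open IsLocalRing Polynomial Fermat.Agent.S53 Fermat.Agent.S55 ExtCitation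

noncomputable section

namespace Fermat.Agent.S56

variable {k : Type} [Field k] {ρbar : ResidualGaloisRep k} {r0 : Gal →* GL (Fin 2) k}

theorem isSm_of_hasMatrixRes (h0 : HasMatrixRes ρbar (fun σ => (r0 σ : M2 k))) : IsSm r0 :=
  exists_level h0

theorem isCycDet_of_hasMatrixRes (p : ℕ) [Fact p.Prime]
    (h0 : HasMatrixRes ρbar (fun σ => (r0 σ : M2 k)))
    (hdet : (GaloisRepAdic.ofResidualGaloisRep ρbar).DetIsCyclotomic p) : IsCycDet p r0 := by
  intro σ
  obtain ⟨b, hb⟩ := h0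
  have hp0 : (p : k) = 0 := by
    have h1 := hdet.1
    rwa [IsLocalRing.maximalIdeal_eq_bot, Ideal.mem_bot] at h1
  have h := hdet.2 1 σ ((cycloChar p σ : (ZMod p)ˣ) : ZMod p).val
    (fun μ hμ => E.cycloChar_spec p σ (by rwa [pow_one] at hμ))
  rw [pow_one, hp0, Ideal.span_singleton_eq_bot.2 rfl, Ideal.mem_bot, sub_eq_zero] at h
  rw [← h]
  have h2 : LinearMap.det (ρbar.ρ σ) = (LinearMap.toMatrix b b (ρbar.ρ σ)).det :=
    (LinearMap.det_toMatrix b _).symm
  have h3 : LinearMap.toMatrix b b (ρbar.ρ σ) = (r0 σ : M2 k) := hb σ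
  rw [← h3]
  exact h2.symm

theorem split_of_hasMatrixRes (h0 : HasMatrixRes ρbar (fun σ => (r0 σ : M2 k)))
    (hsplit : ∀ σ : Gal, ∃ α β : k, LinearMap.charpoly (ρbar.ρ σ) = (X - C α) * (X - C β))
    (σ : Gal) : ∃ α β : k, (r0 σ : M2 k).charpoly = (X - C α) * (X - C β) := by
  obtain ⟨b, hb⟩ := h0
  obtain ⟨α, β, h⟩ := hsplit σ
  refine ⟨α, β, ?_⟩
  have h3 : LinearMap.toMatrix b b (ρbar.ρ σ) = (r0 σ : M2 k) := hb σ
  rw [← h3, LinearMap.charpoly_toMatrix]
  exact h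

theorem charP_res {𝒪 : Type} [CommRing 𝒪] [IsLocalRing 𝒪] (p : ℕ) [Fact p.Prime]
    (hp𝒪 : (p : 𝒪) ∈ maximalIdeal 𝒪) : CharP (ResidueField 𝒪) p := by
  rw [CharP.charP_iff_prime_eq_zero (Fact.out : p.Prime)]
  have h1 : residue 𝒪 (p : 𝒪) = 0 := (residue_eq_zero_iff _).2 hp𝒪
  rwa [map_natCast] at h1

end Fermat.Agent.S56
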