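import Fermat.Agent.S56.Flat.FI.Main

/-!
# S56 / FLAT : interface (owner helper16).   Briefing `S56-FLAT`.

(T2, flat half): there is a subgroup `L ≤ H¹(D_p, ad⁰)` containing the local classes of all cocycles `c` whose lift `(1 + ε c) r0` is flat at `p`,
with `#L ≤ #k * #H⁰(D_p, ad⁰)`.
-/

set_option autoImplicit false

noncomputable section

namespace Fermat.Agent.S56

open Fermat.Agent.S53 (M2 HasMatrix HasMatrixRes Keps)
open Fermat.Agent.S55 IsLocalRing Polynomial ExtCitation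

theorem flat_local {𝒪 : Type} [CommRing 𝒪] [IsLocalRing 𝒪] [Finite (ResidueField 𝒪)]
    (p : ℕ) [Fact p.Prime] (hp2 : p ≠ 2) [CharP (ResidueField 𝒪) p]
    (r0 : GQ →* GL (Fin 2) (ResidueField 𝒪)) (hsm : IsSm r0) (hdet : IsCycDet p r0)
    (hsplit : ∀ σ : GQ, ∃ α β : ResidueField 𝒪,
      (r0 σ : M2 (ResidueField 𝒪)).charpoly = (X - C α) * (X - C β)) :
    ∃ L : AddSubgroup (H1 (lvlD (pPrime p)) (adRhoD r0 (pPrime p))), Finite L ∧
      (∀ (c : ↥(Z1 lvlQ (adRho r0))) (ρ : GaloisRepAdic (Keps 𝒪)),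
        HasMatrix ρ (liftMat r0 (c : GQ → Ad0 (ResidueField 𝒪))) → ρ.IsFlatAt p →
          loc1 (adRho r0) (pPrime p) (H1.mk lvlQ (adRho r0) c) ∈ L) ∧
      Nat.card L ≤ Nat.card (ResidueField 𝒪) * Nat.card (H0 (adRhoD r0 (pPrime p))) :=
  Flat.flat_local' p hp2 r0 hsm hdet hsplit

end Fermat.Agent.S56
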