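import Fermat.Agent.S56.Sel
import Fermat.Agent.S56.DictTop
import Fermat.Agent.S56.IfFlat
import Fermat.Agent.S56.Loc.Lq
import Fermat.Agent.S56.Loc.SO

/-!
# S56 : interface of the LOCAL blocks      (statements fixed by TOP = helper28; owners: LOC-q, SO = helper25; FLAT = helper16)

`k = ResidueField 𝒪`, `r0` a matrix form of `ρbar`, `M = Ad0 k` with `adRho r0`.  Each block produces ONE subgroup `L ≤ H¹(D_v, M)` which
* contains `loc_v [c]` for every global cocycle `c` whose lift `(1 + ε c) r0` is (the matrix of) a representation `ρ` over `k[ε]` with cyclotomic determinant satisfying the local condition at `v`,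
* is small: `#L ≤ #H⁰(D_v, M)` (`v ≠ p`), `#L ≤ #k * #H⁰(D_p, M)` (`v = p`).
VACUOUS CASES need no care (`L` only has to CONTAIN the good classes; if there is no good `c`, `L = ⊥`).
-/

set_option autoImplicit false

open IsLocalRing Polynomial Fermat.Agent.S53 Fermat.Agent.S55 ExtCitation

noncomputable section

namespace Fermat.Agent.S56

variable {𝒪 : Type} [CommRing 𝒪] [IsDomain 𝒪] [IsDiscreteValuationRing 𝒪]
  [IsAdicComplete (maximalIdeal 𝒪) 𝒪] [Finite (ResidueField 𝒪)]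

/-- **[LOC-q]** (T3) `q ≠ p`, lifts which are unipotent on inertia at `q`, `ρbar` ramified at `q` -/
theorem exists_Lq (p : ℕ) [Fact p.Prime] (hp2 : p ≠ 2) (hp𝒪 : (p : 𝒪) ∈ maximalIdeal 𝒪)
    {ρbar : ResidualGaloisRep (ResidueField 𝒪)} (r0 : Gal →* GL (Fin 2) (ResidueField 𝒪))
    (h0 : HasMatrixRes ρbar (fun σ => (r0 σ : M2 (ResidueField 𝒪))))
    (q : Nat.Primes) (hq : (q : ℕ) ≠ p) (hram : ¬ ρbar.IsUnramifiedAt q) :
    ∃ L : AddSubgroup (H1 (lvlD q) (rv Dq (adRho r0) q)), Finite L ∧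
      Nat.card L ≤ Nat.card (H0 (rv Dq (adRho r0) q)) ∧
      ∀ (c : ↥(Z1 lvlQ (adRho r0))) (ρ : GaloisRepAdic (Keps 𝒪)),
        HasMatrix ρ (liftMat r0 (c : Gal → Ad0 (ResidueField 𝒪))) → ρ.DetIsCyclotomic p →
        ρ.IsUnipotentOnInertiaAt q → loc1 (adRho r0) q (H1.mk lvlQ (adRho r0) c) ∈ L :=
  Loc.exists_Lq p hp2 hp𝒪 r0 h0 q hq hram

/-- **[SO]** (T2, strictly ordinary half) -/
theorem exists_Lp_so (p : ℕ) [Fact p.Prime] (hp2 : p ≠ 2) (hp𝒪 : (p : 𝒪) ∈ maximalIdeal 𝒪)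
    {ρbar : ResidualGaloisRep (ResidueField 𝒪)} (r0 : Gal →* GL (Fin 2) (ResidueField 𝒪))
    (h0 : HasMatrixRes ρbar (fun σ => (r0 σ : M2 (ResidueField 𝒪)))) :
    ∃ L : AddSubgroup (H1 (lvlD (pPrime p)) (rv Dq (adRho r0) (pPrime p))), Finite L ∧
      Nat.card L ≤ Nat.card (ResidueField 𝒪) * Nat.card (H0 (rv Dq (adRho r0) (pPrime p))) ∧
      ∀ (c : ↥(Z1 lvlQ (adRho r0))) (ρ : GaloisRepAdic (Keps 𝒪)),
        HasMatrix ρ (liftMat r0 (c : Gal → Ad0 (ResidueField 𝒪))) → ρ.DetIsCyclotomic p →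
        ρ.IsStrictOrdinaryAt p → loc1 (adRho r0) (pPrime p) (H1.mk lvlQ (adRho r0) c) ∈ L :=
  Loc.exists_Lp_so p hp2 hp𝒪 r0 h0

/-- **[FLAT]** (T2, flat half) : wired to `flat_local` (helper16) -/
theorem exists_Lp_flat (p : ℕ) [Fact p.Prime] (hp2 : p ≠ 2) (hp𝒪 : (p : 𝒪) ∈ maximalIdeal 𝒪)
    {ρbar : ResidualGaloisRep (ResidueField 𝒪)}
    (hdet : (GaloisRepAdic.ofResidualGaloisRep ρbar).DetIsCyclotomic p)
    (hsplit : ∀ σ : Gal, ∃ α β : ResidueField 𝒪,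
      LinearMap.charpoly (ρbar.ρ σ) = (X - C α) * (X - C β))
    (r0 : Gal →* GL (Fin 2) (ResidueField 𝒪))
    (h0 : HasMatrixRes ρbar (fun σ => (r0 σ : M2 (ResidueField 𝒪)))) :
    ∃ L : AddSubgroup (H1 (lvlD (pPrime p)) (rv Dq (adRho r0) (pPrime p))), Finite L ∧
      Nat.card L ≤ Nat.card (ResidueField 𝒪) * Nat.card (H0 (rv Dq (adRho r0) (pPrime p))) ∧
      ∀ (c : ↥(Z1 lvlQ (adRho r0))) (ρ : GaloisRepAdic (Keps 𝒪)),
        HasMatrix ρ (liftMat r0 (c : Gal → Ad0 (ResidueField 𝒪))) → ρ.DetIsCyclotomic p →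
        ρ.IsFlatAt p → loc1 (adRho r0) (pPrime p) (H1.mk lvlQ (adRho r0) c) ∈ L := by
  haveI : CharP (ResidueField 𝒪) p := charP_res p hp𝒪
  obtain ⟨L, hfin, hmem, hcard⟩ := flat_local (𝒪 := 𝒪) p hp2 r0 (isSm_of_hasMatrixRes h0)
    (isCycDet_of_hasMatrixRes p h0 hdet) (split_of_hasMatrixRes h0 hsplit)
  exact ⟨L, hfin, hcard, fun c ρ hρ _ hf => hmem c ρ hρ hf⟩

end Fermat.Agent.S56
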