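import Fermat.Agent.S56.Sel
import Fermat.Agent.S56.DictTop
import Fermat.Agent.S56.E.Export
import Fermat.Agent.S53.FrameExists

/-!
# S56 : interface of block E (global Euler characteristic)      (statement fixed by TOP = helper28; owner helper15)

`M = Ad0 k`, `ρM = adRho r0`, `ρM' = dualRho (cycloChar p) ρM` (`= ad⁰(1)`), `T₀ ∋ p` finite, `ρbar` unramified outside `T₀`: there is `S₁ ⊇ T₀` such that for ALL finite `T ⊇ S₁`:
  (★)   `#Ш¹_T(M) * #k * ∏_{v ∈ T} #H⁰(D_v, M) ≤ #H¹_T(M')`.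
= (EC≥) `#H¹_T(M') ≥ #H²_T(M') * #H⁰(M') * #k`  +  (H2COUNT) `#H²_T(M') ≥ #Ш¹_T(M) * ∏_{v ∈ T} #H⁰(D_v, M)`
[(H2COUNT): `#Ш²_T(M') = #Ш¹_T(M'') = #Ш¹_T(M)` (`S55.core`, biduality); `H²_T(M') → ⊕_{v ∈ T} H²(D_v, M')` is onto (`glob2`, `H⁰(G, M) = 0`, + (H2ONTO)); `#H²(D_v, M') = #H⁰(D_v, M)` (Loc-2)].
-/

set_option autoImplicit false

open IsLocalRing Polynomial Fermat.Agent.S53 Fermat.Agent.S55 Fermat.Agent.S55.D ExtCitation

noncomputable section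

namespace Fermat.Agent.S56

variable {𝒪 : Type} [CommRing 𝒪] [IsDomain 𝒪] [IsDiscreteValuationRing 𝒪]
  [IsAdicComplete (maximalIdeal 𝒪) 𝒪] [Finite (ResidueField 𝒪)]

/-- `ad⁰` is smooth for the levels unramified outside `T` -/
theorem finMod_adRho_lvlS {p : ℕ} {ρbar : ResidualGaloisRep (ResidueField 𝒪)}
    {r0 : Gal →* GL (Fin 2) (ResidueField 𝒪)}
    (h0 : HasMatrixRes ρbar (fun σ => (r0 σ : M2 (ResidueField 𝒪))))
    (hMQ : FinMod p lvlQ (adRho r0)) (T : Finset Nat.Primes)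
    (hur : ∀ q : Nat.Primes, q ∉ T → ρbar.IsUnramifiedAt q) : FinMod p (lvlS T) (adRho r0) := by
  refine ⟨hMQ.fin, hMQ.tors, E.smooth_lvlS T _ hMQ.smooth fun q hq B hB g hg => ?_⟩
  obtain ⟨b, hb⟩ := h0
  have h1 : (r0 g : M2 (ResidueField 𝒪)) = 1 := by
    have h3 := hb g
    rw [hur q hq B hB g hg] at h3
    exact h3.symm.trans (LinearMap.toMatrix_one b)
  have h2 : r0 g = 1 := Units.ext h1
  ext X : 2
  rw [coe_adRho, h2]
  simp

/-- Schur: `H⁰(G_ℚ, ad⁰) = 0` -/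
theorem card_H0_adRho (p : ℕ) [Fact p.Prime] (hp2 : p ≠ 2) [CharP (ResidueField 𝒪) p]
    {ρbar : ResidualGaloisRep (ResidueField 𝒪)} (habs : ρbar.IsAbsolutelyIrreducible)
    {r0 : Gal →* GL (Fin 2) (ResidueField 𝒪)}
    (h0 : HasMatrixRes ρbar (fun σ => (r0 σ : M2 (ResidueField 𝒪)))) :
    Nat.card (H0 (adRho r0)) = 1 := by
  have hbot : H0 (adRho r0) = ⊥ := by
    rw [eq_bot_iff]
    intro X hX
    obtain ⟨b, hb⟩ := h0
    have hc : ∀ σ, (X : M2 (ResidueField 𝒪)) * LinearMap.toMatrix b b (ρbar.ρ σ) =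
        LinearMap.toMatrix b b (ρbar.ρ σ) * (X : M2 (ResidueField 𝒪)) := by
      intro σ
      have h3 : LinearMap.toMatrix b b (ρbar.ρ σ) = (r0 σ : M2 (ResidueField 𝒪)) := hb σ
      have h4 := congrArg (fun Y : Ad0 (ResidueField 𝒪) => (Y : M2 (ResidueField 𝒪))) (hX σ)
      simp only [coe_adRho] at h4
      rw [h3]
      calc (X : M2 (ResidueField 𝒪)) * (r0 σ : M2 (ResidueField 𝒪))
          = ((r0 σ : M2 (ResidueField 𝒪)) * X * (((r0 σ)⁻¹ : GL (Fin 2) (ResidueField 𝒪)) :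
              M2 (ResidueField 𝒪))) * (r0 σ : M2 (ResidueField 𝒪)) := by rw [h4]
        _ = (r0 σ : M2 (ResidueField 𝒪)) * X := by
            rw [mul_assoc, ← Units.val_mul, inv_mul_cancel, Units.val_one, mul_one]
    obtain ⟨h01, h10, h00⟩ := FrameExists.schur ρbar habs b _ hc
    have htr : (X : M2 (ResidueField 𝒪)).trace = 0 := X.2
    rw [Matrix.trace_fin_two, ← h00, ← two_mul] at htr
    have h2 : (2 : ResidueField 𝒪) ≠ 0 := by
      intro h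
      have h5 : ((2 : ℕ) : ResidueField 𝒪) = 0 := by exact_mod_cast h
      rw [CharP.cast_eq_zero_iff (ResidueField 𝒪) p] at h5
      exact hp2 ((Nat.prime_dvd_prime_iff_eq (Fact.out : p.Prime) Nat.prime_two).1 h5)
    have h6 : (X : M2 (ResidueField 𝒪)) 0 0 = 0 := (mul_eq_zero.1 htr).resolve_left h2
    refine (AddSubgroup.mem_bot).2 (Subtype.ext ?_)
    ext i j
    fin_cases i <;> fin_cases j
    · exact h6
    · exact h01
    · exact h10
    · exact h00 ▸ h6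
  rw [hbot]
  exact AddSubgroup.card_bot

/-- **(★)** for all LARGE `T` (`T ⊇ S₁ ⊇ T₀`) -/
theorem ec_star (p : ℕ) [Fact p.Prime] (hp2 : p ≠ 2) (hp𝒪 : (p : 𝒪) ∈ maximalIdeal 𝒪)
    (ρbar : ResidualGaloisRep (ResidueField 𝒪)) (habs : ρbar.IsAbsolutelyIrreducible)
    (hdet : (GaloisRepAdic.ofResidualGaloisRep ρbar).DetIsCyclotomic p)
    (r0 : Gal →* GL (Fin 2) (ResidueField 𝒪))
    (h0 : HasMatrixRes ρbar (fun σ => (r0 σ : M2 (ResidueField 𝒪))))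
    (T₀ : Finset Nat.Primes) (hpT : pPrime p ∈ T₀)
    (hur : ∀ q : Nat.Primes, q ∉ T₀ → ρbar.IsUnramifiedAt q) :
    ∃ S₁ : Finset Nat.Primes, T₀ ⊆ S₁ ∧ ∀ T : Finset Nat.Primes, S₁ ⊆ T →
      Finite (H1 (lvlS T) (dualRho (cycloChar p) (adRho r0))) ∧ Finite (Sha1S T (adRho r0)) ∧
        Nat.card (Sha1S T (adRho r0)) * Nat.card (ResidueField 𝒪) *
            ∏ v ∈ T, Nat.card (H0 (rv Dq (adRho r0) v)) ≤
          Nat.card (H1 (lvlS T) (dualRho (cycloChar p) (adRho r0))) := by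
  haveI : CharP (ResidueField 𝒪) p := charP_res p hp𝒪
  have hMQ : FinMod p lvlQ (adRho r0) := finMod_adRho p h0
  have hMT : FinMod p (lvlS T₀) (adRho r0) := finMod_adRho_lvlS h0 hMQ T₀ hur
  obtain ⟨S₁, hS₁, hE⟩ := E.ec hp2 T₀ hpT (adRho r0) hMT
  refine ⟨S₁, hS₁, fun T hT => ?_⟩
  obtain ⟨h1, h2, h3⟩ := hE T hT
  refine ⟨h1, h2, ?_⟩
  rw [card_H0_adRho p hp2 habs h0, mul_one,
    E.card_minus_ad hp2 r0 (isCycDet_of_hasMatrixRes p h0 hdet)] at h3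
  rw [h3]
  haveI := hMQ.fin
  have hpos : 0 < Nat.card (H0 (dualRho (cycloChar p) (adRho r0))) := by
    haveI : Finite (Ad0 (ResidueField 𝒪) →+ ZMod p) :=
      Finite.of_injective (fun f => (f : Ad0 (ResidueField 𝒪) → ZMod p)) DFunLike.coe_injective
    exact Nat.card_pos
  calc Nat.card (Sha1S T (adRho r0)) * Nat.card (ResidueField 𝒪) *
        ∏ v ∈ T, Nat.card (H0 (rv Dq (adRho r0) v))
      = Nat.card (Sha1S T (adRho r0)) * 1 * (∏ v ∈ T, Nat.card (H0 (rv Dq (adRho r0) v))) *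
          Nat.card (ResidueField 𝒪) := by ring
    _ ≤ _ := by gcongr; exact hpos

end Fermat.Agent.S56
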