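import Fermat.Agent.S56.Tan.Defs
import Fermat.Prelude.Def_GaloisRep_LocalConditions

/-!
# S56 : common definitions (owner helper16)

THE common definitions of S56 are those of `Tan/Defs.lean` (helper21): `Ad0 k` (trace zero matrices), `adRho r0 : Gal →* AddMonoid.End (Ad0 k)`,
`liftMat r0 c σ = (1 + ε c σ) r0 σ`, `IsType 𝒟 r0 c`.  Cohomology = the S55 formalism: `H0`, `Z1`, `B1`, `H1`, `lvlQ`, `lvlS S`, `lvlD q`, `Dq q`, `Iq q`, `loc1`.
This file only adds:
* `adRhoD r0 q` : restriction of `adRho r0` to `Dq q`.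
* `rhoV r` : the action of `GQ` on column vectors `Fin 2 → A` given by a multiplicative `r : GQ → M2 A`.
* `IsFlatMod p V act` : the finite `GQ`-module `(V, act)` is the generic fibre of a finite flat commutative group scheme over `ℤ_(p)`
  (exactly the body of `GaloisRepAdic.IsFlatAt`, for an abstract module).
* `IsSm r0`, `IsCycDet p r0`.
-/

set_option autoImplicit false

noncomputable section

namespace Fermat.Agent.S56

open Fermat.Agent.S53 (M2 HasMatrix HasMatrixRes Keps)
open Fermat.Agent.S55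

variable {k : Type} [Field k]

/-- restriction of the adjoint action to the decomposition group at `q` -/
abbrev adRhoD (r0 : GQ →* GL (Fin 2) k) (q : Nat.Primes) : ↥(Dq q) →* AddMonoid.End (Ad0 k) :=
  (adRho r0).comp (Dq q).subtype

/-- the finite `GQ`-module `(V, act)` is the generic fibre of a finite flat commutative group scheme over `ℤ_(p)` -/
def IsFlatMod (p : ℕ) (V : Type) [AddCommGroup V] (act : GQ →* AddMonoid.End V) : Prop :=
  ∃ (H : Type) (_ : CommRing H) (_ : HopfAlgebra (GaloisRep.ratLocalizedAt p) H),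
    Module.Finite (GaloisRep.ratLocalizedAt p) H ∧
    Module.Flat (GaloisRep.ratLocalizedAt p) H ∧
    Coalgebra.IsCocomm (GaloisRep.ratLocalizedAt p) H ∧
    ∃ e : WithConv (H →ₐ[GaloisRep.ratLocalizedAt p] Qb) ≃ V,
      (∀ f g : WithConv (H →ₐ[GaloisRep.ratLocalizedAt p] Qb), e (f * g) = e f + e g) ∧
      ∀ (σ : GQ) (f g : WithConv (H →ₐ[GaloisRep.ratLocalizedAt p] Qb)),
        (∀ h : H, g h = σ (f h)) → e g = act σ (e f)

/-- the action on column vectors given by matrices -/
def rhoV {A : Type} [CommRing A] (r : GQ → M2 A) (h1 : r 1 = 1) (hmul : ∀ σ τ, r (σ * τ) = r σ * r τ) :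
    GQ →* AddMonoid.End (Fin 2 → A) where
  toFun σ := (Matrix.mulVecLin (r σ)).toAddMonoidHom
  map_one' := by
    ext v : 1
    show (r 1).mulVec v = v
    rw [h1, Matrix.one_mulVec]
  map_mul' σ τ := by
    ext v : 1
    show (r (σ * τ)).mulVec v = (r σ).mulVec ((r τ).mulVec v)
    rw [hmul, Matrix.mulVec_mulVec]

/-- `r0` factors through a finite level -/
def IsSm (r0 : GQ →* GL (Fin 2) k) : Prop := ∃ U ∈ lvlQ.sets, ∀ σ ∈ U, r0 σ = 1

/-- `det r0` is the mod `p` cyclotomic character -/
def IsCycDet (p : ℕ) [Fact p.Prime] (r0 : GQ →* GL (Fin 2) k) : Prop :=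
  ∀ σ, (r0 σ : M2 k).det = ((((ExtCitation.cycloChar p σ : (ZMod p)ˣ) : ZMod p).val : ℕ) : k)

end Fermat.Agent.S56
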