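import Fermat.Agent.S56.Sel
import Fermat.Agent.S56.Defs
import Fermat.Agent.S56.DictTop
import Fermat.Agent.S56.KS.Main

/-!
# S56 / IfKS : killing one dual Selmer class by a Taylor-Wiles prime      (owner helper9)

`M' = (Ad0 k →+ ZMod p)` with the action `dualRho (cycloChar p) (adRho r0)`.
For every NON-ZERO class `x ∈ H¹(G_ℚ, M')`, every `n` and every finite set `S` of integers there is a prime `q ∉ S`,
`q ≡ 1 mod p^(n+1)`, all Frobenius elements at `q` have distinct eigenvalues in `k`, and `loc_q x ≠ 0`.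
(The induction "`r` primes kill a finite subgroup of order `≤ p^r`" is `ks_many` below / helper28.)
-/

set_option autoImplicit false

open IsLocalRing Polynomial Fermat.Agent.S53 Fermat.Agent.S55 ExtCitation

noncomputable section

namespace Fermat.Agent.S56

variable {𝒪 : Type} [CommRing 𝒪] [IsDomain 𝒪] [IsDiscreteValuationRing 𝒪]
  [IsAdicComplete (maximalIdeal 𝒪) 𝒪] [Finite (ResidueField 𝒪)]

/-- **[KS]** -/
theorem ks (p : ℕ) [Fact p.Prime] (hp2 : p ≠ 2) (hp𝒪 : (p : 𝒪) ∈ maximalIdeal 𝒪)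
    (ρbar : ResidualGaloisRep (ResidueField 𝒪))
    (habs : ρbar.IsAbsolutelyIrreducible)
    (hdet : (GaloisRepAdic.ofResidualGaloisRep ρbar).DetIsCyclotomic p)
    (hsplit : ∀ σ : Gal, ∃ α β : ResidueField 𝒪,
      LinearMap.charpoly (ρbar.ρ σ) = (X - C α) * (X - C β))
    (hTW : ∀ (K : Type) [Field K] [Algebra (ResidueField 𝒪) K] (G : Subgroup Gal), G.index = 2 →
      ∀ V : Submodule K (ρbar.baseChange K).V,
        (∀ σ ∈ G, ∀ x ∈ V, (ρbar.baseChange K).ρ σ x ∈ V) → V = ⊥ ∨ V = ⊤)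
    (r0 : Gal →* GL (Fin 2) (ResidueField 𝒪))
    (h0 : HasMatrixRes ρbar (fun σ => (r0 σ : M2 (ResidueField 𝒪))))
    (Sm : Finset Nat.Primes)
    (hur : ∀ q : Nat.Primes, q ∉ Sm → ρbar.IsUnramifiedAt q)
    (x : H1 lvlQ (dualRho (cycloChar p) (adRho r0))) (hx : x ≠ 0) (n : ℕ) (S : Finset ℕ) :
    ∃ q : Nat.Primes, (q : ℕ) ∉ S ∧ p ^ (n + 1) ∣ (q : ℕ) - 1 ∧
      (∀ P : ValuationSubring (AlgebraicClosure ℚ), P.LiesOverPrime q →
        ∀ φ : Gal, P.IsFrobeniusAt φ q →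
          ∃ α β : ResidueField 𝒪, α ≠ β ∧ LinearMap.charpoly (ρbar.ρ φ) = (X - C α) * (X - C β)) ∧
      loc1 (dualRho (cycloChar p) (adRho r0)) q x ≠ 0 := by
  classical
  haveI : CharP (ResidueField 𝒪) p := charP_res p hp𝒪
  have hdet' : IsCycDet p r0 := isCycDet_of_hasMatrixRes p h0 hdet
  have hsp : KS.Split r0 := fun σ => split_of_hasMatrixRes h0 hsplit σ
  obtain ⟨q, A, σ, hqS, hdvd, hA, hFr, hd1, hreg, hloc⟩ :=
    KS.ks_mat p hp2 r0 (isSm_of_hasMatrixRes h0) hdet' (KS.f12_of ρbar habs hTW r0 h0) hsp x hx n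
      (S ∪ Sm.image (fun v : Nat.Primes => (v : ℕ)))
  have hqS' : (q : ℕ) ∉ S := fun h => hqS (Finset.mem_union_left _ h)
  have hqSm : q ∉ Sm := fun h => hqS (Finset.mem_union_right _ (Finset.mem_image_of_mem _ h))
  refine ⟨q, hqS', hdvd, ?_, hloc⟩
  intro P hP φ hφ
  obtain ⟨g, i, hi, rfl⟩ := KS.frob_conj q A P hA hP σ φ hFr hφ
  have hur' : ρbar.ρ i = 1 := hur q hqSm P hP i hi
  obtain ⟨α, β, hαβ⟩ := hsplit (g * σ * g⁻¹ * i)
  refine ⟨α, β, ?_, hαβ⟩
  rintro rfl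
  obtain ⟨b, hb⟩ := h0
  have hri : r0 i = 1 := by
    apply Units.ext
    have := hb i
    rw [hur', LinearMap.toMatrix_one] at this
    exact this.symm
  have h3 : LinearMap.toMatrix b b (ρbar.ρ (g * σ * g⁻¹ * i)) =
      (r0 (g * σ * g⁻¹ * i) : M2 (ResidueField 𝒪)) := hb _
  rw [← LinearMap.charpoly_toMatrix _ b, h3, Matrix.charpoly_fin_two] at hαβ
  have hgi : ((r0 g)⁻¹ : GL (Fin 2) (ResidueField 𝒪)).1 * (r0 g).1 = 1 := by
    rw [← Units.val_mul, inv_mul_cancel, Units.val_one]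
  have htr : (r0 (g * σ * g⁻¹ * i) : M2 (ResidueField 𝒪)).trace =
      (r0 σ : M2 (ResidueField 𝒪)).trace := by
    rw [map_mul, hri, mul_one, map_mul, map_mul, map_inv, Units.val_mul, Units.val_mul,
      Matrix.trace_mul_cycle, hgi, Matrix.one_mul]
  have hdt : (r0 (g * σ * g⁻¹ * i) : M2 (ResidueField 𝒪)).det =
      (r0 σ : M2 (ResidueField 𝒪)).det := by
    rw [map_mul, hri, mul_one, map_mul, map_mul, map_inv, Units.val_mul, Units.val_mul,
      Matrix.det_mul, Matrix.det_mul, mul_comm, ← mul_assoc, ← Matrix.det_mul, hgi,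
      Matrix.det_one, one_mul]
  rw [htr, hdt, hd1] at hαβ
  have c0 := congrArg (Polynomial.eval 0) hαβ
  have c1 := congrArg (Polynomial.eval α) hαβ
  simp only [Polynomial.eval_add, Polynomial.eval_sub, Polynomial.eval_mul, Polynomial.eval_pow,
    Polynomial.eval_X, Polynomial.eval_C] at c0 c1
  apply hreg
  show (r0 σ : M2 (ResidueField 𝒪)).trace ^ 2 = 4
  have h5 : α ^ 2 = 1 := by linear_combination -c0
  have h6 : (r0 σ : M2 (ResidueField 𝒪)).trace * α = 2 := by linear_combination h5 - c1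
  have h7 : ((r0 σ : M2 (ResidueField 𝒪)).trace * α) ^ 2 = 4 := by rw [h6]; norm_num
  rw [mul_pow, h5, mul_one] at h7
  exact h7

end Fermat.Agent.S56
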