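import Fermat.Agent.S56.GW.LocPair
import Fermat.Agent.S56.TW.Inst

/-!
# S56 : interface of block LOC-TW (local cohomology at a Taylor-Wiles prime)      (statements fixed by TOP = helper28; owner helper6)
-/

set_option autoImplicit false

open IsLocalRing Polynomial Fermat.Agent.S53 Fermat.Agent.S55 Fermat.Agent.S55.D ExtCitation

noncomputable section

namespace Fermat.Agent.S56

variable {𝒪 : Type} [CommRing 𝒪] [IsDomain 𝒪] [IsDiscreteValuationRing 𝒪]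
  [IsAdicComplete (maximalIdeal 𝒪) 𝒪] [Finite (ResidueField 𝒪)]

/-- **[TWa]** -/
theorem tw_card (p : ℕ) [Fact p.Prime] (hp2 : p ≠ 2) (hp𝒪 : (p : 𝒪) ∈ maximalIdeal 𝒪)
    (ρbar : ResidualGaloisRep (ResidueField 𝒪)) (r0 : Gal →* GL (Fin 2) (ResidueField 𝒪))
    (h0 : HasMatrixRes ρbar (fun σ => (r0 σ : M2 (ResidueField 𝒪))))
    (q : Nat.Primes) (hqp : (q : ℕ) ≠ p) (hq1 : p ∣ (q : ℕ) - 1) (hur : ρbar.IsUnramifiedAt q)
    (hfrob : ∀ P : ValuationSubring (AlgebraicClosure ℚ), P.LiesOverPrime q →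
      ∀ φ : Gal, P.IsFrobeniusAt φ q →
        ∃ α β : ResidueField 𝒪, α ≠ β ∧ LinearMap.charpoly (ρbar.ρ φ) = (X - C α) * (X - C β)) :
    Finite (H1 (lvlD q) (rv Dq (adRho r0) q)) ∧
      Nat.card (H1 (lvlD q) (rv Dq (adRho r0) q)) ≤
        Nat.card (ResidueField 𝒪) * Nat.card (H0 (rv Dq (adRho r0) q)) := by
  have : CharP (ResidueField 𝒪) p :=
    (CharP.charP_iff_prime_eq_zero (Fact.out : p.Prime)).2 (TW.p_eq_zero p hp𝒪)
  exact TW.tw_card (k := ResidueField 𝒪) p (TW.two_ne_zero' p hp2 hp𝒪) ρbar r0 h0 q hqp hq1 hur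
    hfrob

/-- **[TWb]** the annihilator of the whole `H¹(D_q, M)` is `0` -/
theorem tw_perp (p : ℕ) [Fact p.Prime] (hp2 : p ≠ 2) (hp𝒪 : (p : 𝒪) ∈ maximalIdeal 𝒪)
    (ρbar : ResidualGaloisRep (ResidueField 𝒪)) (r0 : Gal →* GL (Fin 2) (ResidueField 𝒪))
    (h0 : HasMatrixRes ρbar (fun σ => (r0 σ : M2 (ResidueField 𝒪))))
    (dat : Datum p lvlQ (cycloChar p) Dq) (hM : FinMod p lvlQ (adRho r0))
    (q : Nat.Primes) (hqp : (q : ℕ) ≠ p) (hq1 : p ∣ (q : ℕ) - 1) (hur : ρbar.IsUnramifiedAt q)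
    (y : H1 (lvlD q) (rv Dq (dualRho (cycloChar p) (adRho r0)) q))
    (hy : ∀ x : H1 (lvlD q) (rv Dq (adRho r0) q), lp dat hM q x y = 0) : y = 0 :=
  TW.tw_perp (k := ResidueField 𝒪) p ρbar r0 h0 dat hM q hqp hq1 hur y hy

end Fermat.Agent.S56
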