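import Fermat.Agent.S56.Sel
import Fermat.Agent.S56.GW.Main
import Fermat.Agent.S56.IfE
import Fermat.Agent.S56.IfKS
import Fermat.Agent.S56.IfTW
import Fermat.Agent.S56.Tan.Res
import Fermat.Agent.S56.DictTop
import Fermat.Agent.S56.Loc.Ur
import Fermat.Agent.S55.Core

/-!
# S56 : the numerical theorem (existence of Taylor-Wiles primes)      (owner helper28; = GW + GW2 + E + KS + LOC-TW)

Given local conditions `L v` (`v ∈ Sm`) with `#L_p ≤ #k #H⁰(D_p, M)`, `#L_v ≤ #H⁰(D_v, M)` (`v ≠ p`): there is `r` such that for all `n` there are `r` Taylor-Wiles primes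
`q_i ≡ 1 mod p^(n+1)` with `#Sel_{L, Q} ≤ #k ^ r`.
-/

set_option autoImplicit false

open IsLocalRing Polynomial Fermat.Agent.S53 Fermat.Agent.S55 Fermat.Agent.S55.D ExtCitation

noncomputable section

namespace Fermat.Agent.S56

variable {𝒪 : Type} [CommRing 𝒪] [IsDomain 𝒪] [IsDiscreteValuationRing 𝒪]
  [IsAdicComplete (maximalIdeal 𝒪) 𝒪] [Finite (ResidueField 𝒪)]

theorem prod_card_le {ι : Type*} [DecidableEq ι] (s : Finset ι) (i0 : ι) (hi0 : i0 ∈ s) (f g : ι → ℕ)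
    (κ : ℕ) (h0 : f i0 ≤ κ * g i0) (h : ∀ i ∈ s, i ≠ i0 → f i ≤ g i) :
    ∏ i ∈ s, f i ≤ κ * ∏ i ∈ s, g i := by
  rw [← Finset.mul_prod_erase s f hi0, ← Finset.mul_prod_erase s g hi0, ← mul_assoc]
  exact Nat.mul_le_mul h0 (Finset.prod_le_prod (fun _ _ => Nat.zero_le _)
    fun i hi => h i (Finset.mem_of_mem_erase hi) (Finset.ne_of_mem_erase hi))

/-- abstract induction: killing a finite set of classes one at a time -/
theorem many_of_one {H : Type*} [AddCommGroup H] {ι : Type*} [DecidableEq ι]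
    (Z : ι → AddSubgroup H) (G : ι → Prop)
    (h : ∀ x : H, x ≠ 0 → ∀ S : Finset ι, ∃ q, q ∉ S ∧ G q ∧ x ∉ Z q)
    (Y : AddSubgroup H) (hY : Finite Y) (S : Finset ι) :
    ∃ s : Finset ι, s.card = Nat.card Y - 1 ∧ (∀ q ∈ s, q ∉ S ∧ G q) ∧
      ∀ y ∈ Y, (∀ q ∈ s, y ∈ Z q) → y = 0 := by
  have hYf : (Y : Set H).Finite := Set.toFinite _
  have hYc : Nat.card Y = (Y : Set H).ncard := Nat.card_coe_set_eq _
  let K : Finset ι → Set H := fun s => {y | y ∈ Y ∧ ∀ q ∈ s, y ∈ Z q}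
  have hKY : ∀ s, K s ⊆ (Y : Set H) := fun s y hy => hy.1
  have hKf : ∀ s, (K s).Finite := fun s => hYf.subset (hKY s)
  have hK0 : ∀ s, (0 : H) ∈ K s := fun s => ⟨zero_mem _, fun q _ => zero_mem _⟩
  have hKi : ∀ s q, K (insert q s) ⊆ K s := fun s q y hy =>
    ⟨hy.1, fun q' hq' => hy.2 q' (Finset.mem_insert_of_mem hq')⟩
  have key : ∀ k, k + 1 ≤ Nat.card Y → ∃ s : Finset ι, s.card = k ∧ (∀ q ∈ s, q ∉ S ∧ G q) ∧
      (K s).ncard + k ≤ Nat.card Y := by
    intro k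
    induction k with
    | zero =>
      intro _
      refine ⟨∅, rfl, fun q hq => absurd hq (Finset.notMem_empty q), ?_⟩
      rw [hYc, add_zero]
      exact Set.ncard_le_ncard (hKY _) hYf
    | succ k ih =>
      intro hk
      obtain ⟨s, hs, hG, hc⟩ := ih (by omega)
      by_cases hb : ∃ x ∈ K s, x ≠ 0
      · obtain ⟨x, hx, hx0⟩ := hb
        obtain ⟨q, hq, hGq, hxq⟩ := h x hx0 (S ∪ s)
        refine ⟨insert q s, ?_, ?_, ?_⟩
        · rw [Finset.card_insert_of_notMem (fun h' => hq (Finset.mem_union_right _ h')), hs]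
        · intro q' hq'
          rcases Finset.mem_insert.1 hq' with rfl | h'
          · exact ⟨fun h' => hq (Finset.mem_union_left _ h'), hGq⟩
          · exact hG q' h'
        · have hlt : (K (insert q s)).ncard < (K s).ncard := by
            refine Set.ncard_lt_ncard ⟨hKi s q, fun hsub => ?_⟩ (hKf s)
            exact hxq ((hsub hx).2 q (Finset.mem_insert_self _ _))
          omega
      · have hb' : ∀ x ∈ K s, x = 0 := fun x hx => by
          by_contra hx0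
          exact hb ⟨x, hx, hx0⟩
        obtain ⟨x, -, hx0⟩ : ∃ x, x ∈ (Y : Set H) ∧ x ≠ 0 :=
          Set.exists_ne_of_one_lt_ncard (by rw [← hYc]; omega) 0
        obtain ⟨q, hq, hGq, -⟩ := h x hx0 (S ∪ s)
        refine ⟨insert q s, ?_, ?_, ?_⟩
        · rw [Finset.card_insert_of_notMem (fun h' => hq (Finset.mem_union_right _ h')), hs]
        · intro q' hq'
          rcases Finset.mem_insert.1 hq' with rfl | h'
          · exact ⟨fun h' => hq (Finset.mem_union_left _ h'), hGq⟩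
          · exact hG q' h'
        · have hle : (K (insert q s)).ncard ≤ 1 := by
            rw [Set.ncard_le_one_iff (hKf _)]
            intro a b ha hb2
            rw [hb' a (hKi s q ha), hb' b (hKi s q hb2)]
          omega
  have hpos : 0 < Nat.card Y := Nat.card_pos
  obtain ⟨s, hs, hG, hc⟩ := key (Nat.card Y - 1) (by omega)
  refine ⟨s, hs, hG, fun y hy hyZ => ?_⟩
  have hle : (K s).ncard ≤ 1 := by omega
  rw [Set.ncard_le_one_iff (hKf _)] at hle
  exact hle ⟨hy, hyZ⟩ (hK0 s)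

/-- **[KS]** for a finite group of classes -/
theorem ks_many (p : ℕ) [Fact p.Prime] (hp2 : p ≠ 2) (hp𝒪 : (p : 𝒪) ∈ maximalIdeal 𝒪)
    (ρbar : ResidualGaloisRep (ResidueField 𝒪)) (habs : ρbar.IsAbsolutelyIrreducible)
    (hdet : (GaloisRepAdic.ofResidualGaloisRep ρbar).DetIsCyclotomic p)
    (hsplit : ∀ σ : Gal, ∃ α β : ResidueField 𝒪,
      LinearMap.charpoly (ρbar.ρ σ) = (X - C α) * (X - C β))
    (hTW : ∀ (K : Type) [Field K] [Algebra (ResidueField 𝒪) K] (G : Subgroup Gal), G.index = 2 →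
      ∀ V : Submodule K (ρbar.baseChange K).V,
        (∀ σ ∈ G, ∀ x ∈ V, (ρbar.baseChange K).ρ σ x ∈ V) → V = ⊥ ∨ V = ⊤)
    (r0 : Gal →* GL (Fin 2) (ResidueField 𝒪))
    (h0 : HasMatrixRes ρbar (fun σ => (r0 σ : M2 (ResidueField 𝒪))))
    (Sm : Finset Nat.Primes)
    (hur : ∀ q : Nat.Primes, q ∉ Sm → ρbar.IsUnramifiedAt q)
    (S : Finset ℕ) (Y : AddSubgroup (H1 lvlQ (dualRho (cycloChar p) (adRho r0)))) (hY : Finite Y) :
    ∃ r : ℕ, ∀ n : ℕ, ∃ qv : Fin r → Nat.Primes, Function.Injective qv ∧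
      (∀ i, (qv i : ℕ) ∉ S ∧ p ^ (n + 1) ∣ (qv i : ℕ) - 1) ∧
      (∀ i, ∀ P : ValuationSubring (AlgebraicClosure ℚ), P.LiesOverPrime (qv i) →
        ∀ φ : Gal, P.IsFrobeniusAt φ (qv i) →
          ∃ α β : ResidueField 𝒪, α ≠ β ∧ LinearMap.charpoly (ρbar.ρ φ) = (X - C α) * (X - C β)) ∧
      ∀ y ∈ Y, (∀ i, loc1 (dualRho (cycloChar p) (adRho r0)) (qv i) y = 0) → y = 0 := by
  classical
  refine ⟨Nat.card Y - 1, fun n => ?_⟩
  have hZ : ∀ (q : Nat.Primes) (x : H1 lvlQ (dualRho (cycloChar p) (adRho r0))),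
      x ∈ (loc1 (dualRho (cycloChar p) (adRho r0)) q).ker ↔
        loc1 (dualRho (cycloChar p) (adRho r0)) q x = 0 := fun q x => AddMonoidHom.mem_ker
  obtain ⟨s, hs, hG, hker⟩ := many_of_one (H := H1 lvlQ (dualRho (cycloChar p) (adRho r0)))
    (fun q : Nat.Primes => (loc1 (dualRho (cycloChar p) (adRho r0)) q).ker)
    (fun q : Nat.Primes => (q : ℕ) ∉ S ∧ p ^ (n + 1) ∣ (q : ℕ) - 1 ∧
      ∀ P : ValuationSubring (AlgebraicClosure ℚ), P.LiesOverPrime q →
        ∀ φ : Gal, P.IsFrobeniusAt φ q →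
          ∃ α β : ResidueField 𝒪, α ≠ β ∧ LinearMap.charpoly (ρbar.ρ φ) = (X - C α) * (X - C β))
    (fun x hx S' => by
      obtain ⟨q, hq, h1, h2, h3⟩ := ks p hp2 hp𝒪 ρbar habs hdet hsplit hTW r0 h0 Sm hur x hx n
        (S ∪ S'.image (fun v : Nat.Primes => (v : ℕ)))
      exact ⟨q, fun hq' => hq (Finset.mem_union_right _ (Finset.mem_image_of_mem _ hq')),
        ⟨fun hq' => hq (Finset.mem_union_left _ hq'), h1, h2⟩,
        fun hx' => h3 ((hZ q x).1 hx')⟩)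
    Y hY ∅
  let e := (s.equivFinOfCardEq hs).symm
  refine ⟨fun i => (e i : Nat.Primes), Subtype.val_injective.comp e.injective,
    fun i => ⟨(hG _ (e i).2).2.1, (hG _ (e i).2).2.2.1⟩, fun i => (hG _ (e i).2).2.2.2,
    fun y hy hyl => hker y hy fun q hq => ?_⟩
  have h1 := hyl (e.symm ⟨q, hq⟩)
  have h2 : ((e (e.symm ⟨q, hq⟩) : ↥s) : Nat.Primes) = q := by rw [Equiv.apply_symm_apply]
  refine (hZ q y).2 ?_
  rw [← h2]
  exact h1

open Classical in
/-- [NUM] when (★) holds for all `T ⊇ Sm` -/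
theorem num_aux (p : ℕ) [Fact p.Prime] (hp2 : p ≠ 2) (hp𝒪 : (p : 𝒪) ∈ maximalIdeal 𝒪)
    (ρbar : ResidualGaloisRep (ResidueField 𝒪))
    (habs : ρbar.IsAbsolutelyIrreducible)
    (hdet : (GaloisRepAdic.ofResidualGaloisRep ρbar).DetIsCyclotomic p)
    (hsplit : ∀ σ : Gal, ∃ α β : ResidueField 𝒪,
      LinearMap.charpoly (ρbar.ρ σ) = (X - C α) * (X - C β))
    (hTW : ∀ (K : Type) [Field K] [Algebra (ResidueField 𝒪) K] (G : Subgroup Gal), G.index = 2 →
      ∀ V : Submodule K (ρbar.baseChange K).V,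
        (∀ σ ∈ G, ∀ x ∈ V, (ρbar.baseChange K).ρ σ x ∈ V) → V = ⊥ ∨ V = ⊤)
    (r0 : Gal →* GL (Fin 2) (ResidueField 𝒪))
    (h0 : HasMatrixRes ρbar (fun σ => (r0 σ : M2 (ResidueField 𝒪))))
    (S : Finset ℕ) (Sm : Finset Nat.Primes) (hpSm : pPrime p ∈ Sm)
    (hSmS : ∀ v ∈ Sm, (v : ℕ) ∈ S)
    (hur : ∀ q : Nat.Primes, q ∉ Sm → ρbar.IsUnramifiedAt q)
    (L : LocCond (adRho r0)) (hLfin : ∀ v ∈ Sm, Finite (L v))
    (hLp : Nat.card (L (pPrime p)) ≤
      Nat.card (ResidueField 𝒪) * Nat.card (H0 (rv Dq (adRho r0) (pPrime p))))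
    (hLq : ∀ v ∈ Sm, v ≠ pPrime p → Nat.card (L v) ≤ Nat.card (H0 (rv Dq (adRho r0) v)))
    (hE : ∀ T : Finset Nat.Primes, Sm ⊆ T →
      Finite (H1 (lvlS T) (dualRho (cycloChar p) (adRho r0))) ∧ Finite (Sha1S T (adRho r0)) ∧
        Nat.card (Sha1S T (adRho r0)) * Nat.card (ResidueField 𝒪) *
            ∏ v ∈ T, Nat.card (H0 (rv Dq (adRho r0) v)) ≤
          Nat.card (H1 (lvlS T) (dualRho (cycloChar p) (adRho r0)))) :
    ∃ r : ℕ, ∀ n : ℕ, ∃ qv : Fin r → Nat.Primes, Function.Injective qv ∧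
      (∀ i, (qv i : ℕ) ∉ S ∧ p ^ (n + 1) ∣ (qv i : ℕ) - 1) ∧
      (∀ i, ∀ P : ValuationSubring (AlgebraicClosure ℚ), P.LiesOverPrime (qv i) →
        ∀ φ : Gal, P.IsFrobeniusAt φ (qv i) →
          ∃ α β : ResidueField 𝒪, α ≠ β ∧ LinearMap.charpoly (ρbar.ρ φ) = (X - C α) * (X - C β)) ∧
      Finite (SelG (adRho r0) Sm (Sm ∪ Finset.univ.image qv) L) ∧
      Nat.card (SelG (adRho r0) Sm (Sm ∪ Finset.univ.image qv) L) ≤
        Nat.card (ResidueField 𝒪) ^ r := by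
  obtain ⟨dat⟩ := datumQ p hp2
  haveI : CharP (ResidueField 𝒪) p := charP_res p hp𝒪
  have hMQ : FinMod p lvlQ (adRho r0) := finMod_adRho p h0
  have hMSm : FinMod p (lvlS Sm) (adRho r0) := finMod_adRho_lvlS h0 hMQ Sm hur
  have hM'Sm : FinMod p (lvlS Sm) (dualRho (cycloChar p) (adRho r0)) :=
    hMSm.dual (smooth_lvlS_rhoT p hpSm)
  -- the dual Selmer group
  obtain ⟨hfinSm, -, -⟩ := hE Sm (Finset.Subset.refl _)
  have hY : Finite (SelG (dualRho (cycloChar p) (adRho r0)) Sm Sm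
      (fun v => perp dat hMQ v (L v))) := by
    have h1 : Finite (infl1 Sm (dualRho (cycloChar p) (adRho r0))).range :=
      Set.finite_range _
    exact Finite.of_injective
      (fun y => (⟨y.1, y.2.1⟩ : (infl1 Sm (dualRho (cycloChar p) (adRho r0))).range))
      (fun a b hab => Subtype.ext (congrArg (fun z => z.1) hab))
  obtain ⟨r, hr⟩ := ks_many p hp2 hp𝒪 ρbar habs hdet hsplit hTW r0 h0 Sm hur S _ hY
  refine ⟨r, fun n => ?_⟩
  obtain ⟨qv, hinj, h1, h2, h3⟩ := hr n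
  refine ⟨qv, hinj, h1, h2, ?_⟩
  have hQSm : ∀ i, qv i ∉ Sm := fun i hi => (h1 i).1 (hSmS _ hi)
  have hdisj : Disjoint Sm (Finset.univ.image qv) := by
    rw [Finset.disjoint_left]
    intro v hv hv'
    obtain ⟨i, -, rfl⟩ := Finset.mem_image.1 hv'
    exact hQSm i hv
  have hpT : pPrime p ∈ Sm ∪ Finset.univ.image qv := Finset.mem_union_left _ hpSm
  have hurT : ∀ q : Nat.Primes, q ∉ Sm ∪ Finset.univ.image qv → ρbar.IsUnramifiedAt q :=
    fun q hq => hur q fun h => hq (Finset.mem_union_left _ h)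
  have hMT : FinMod p (lvlS (Sm ∪ Finset.univ.image qv)) (adRho r0) :=
    finMod_adRho_lvlS h0 hMQ _ hurT
  have hM'T : FinMod p (lvlS (Sm ∪ Finset.univ.image qv)) (dualRho (cycloChar p) (adRho r0)) :=
    hMT.dual (smooth_lvlS_rhoT p hpT)
  -- facts at the Taylor-Wiles primes
  have hqp : ∀ i, ((qv i : Nat.Primes) : ℕ) ≠ p := fun i h => hQSm i (by
    have : qv i = pPrime p := Subtype.ext h
    rw [this]; exact hpSm)
  have hq1 : ∀ i, p ∣ ((qv i : Nat.Primes) : ℕ) - 1 := fun i =>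
    (dvd_pow_self p (Nat.succ_ne_zero n)).trans (h1 i).2
  have hTWa := fun i => tw_card p hp2 hp𝒪 ρbar r0 h0 (qv i) (hqp i) (hq1 i) (hur _ (hQSm i)) (h2 i)
  -- the enlarged local conditions
  let L' : LocCond (adRho r0) := fun v => if v ∈ Sm then L v else ⊤
  have hL'Sm : ∀ v ∈ Sm, L' v = L v := fun v hv => if_pos hv
  have hL'Q : ∀ v, v ∉ Sm → L' v = ⊤ := fun v hv => if_neg hv
  have hSel : SelG (adRho r0) Sm (Sm ∪ Finset.univ.image qv) L =
      SelG (adRho r0) (Sm ∪ Finset.univ.image qv) (Sm ∪ Finset.univ.image qv) L' := by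
    ext x
    rw [mem_SelG, mem_SelG]
    refine and_congr_right fun _ => ⟨fun h v _ => ?_, fun h v hv => ?_⟩
    · by_cases hv : v ∈ Sm
      · rw [hL'Sm v hv]; exact h v hv
      · rw [hL'Q v hv]; exact AddSubgroup.mem_top _
    · rw [← hL'Sm v hv]; exact h v (Finset.mem_union_left _ hv)
  have hL'fin : ∀ v ∈ Sm ∪ Finset.univ.image qv, Finite (L' v) := by
    intro v hv
    by_cases hvS : v ∈ Sm
    · rw [hL'Sm v hvS]; exact hLfin v hvS
    · rw [hL'Q v hvS]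
      rcases Finset.mem_union.1 hv with h | h
      · exact absurd h hvS
      · obtain ⟨i, -, rfl⟩ := Finset.mem_image.1 h
        haveI := (hTWa i).1
        infer_instance
  obtain ⟨hfinT, hshaT, hstar⟩ := hE _ Finset.subset_union_left
  obtain ⟨hfinSel, hgw⟩ := gw_ineq dat hMQ hpT hMT L' hL'fin hfinT hshaT
  -- the dual Selmer group for `T` is trivial
  have hdual : SelG (dualRho (cycloChar p) (adRho r0)) (Sm ∪ Finset.univ.image qv)
      (Sm ∪ Finset.univ.image qv) (fun v => perp dat hMQ v (L' v)) = ⊥ := by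
    rw [eq_bot_iff]
    intro y hy
    have hyQ : ∀ i, loc1 (dualRho (cycloChar p) (adRho r0)) (qv i) y = 0 := by
      intro i
      refine tw_perp p hp2 hp𝒪 ρbar r0 h0 dat hMQ (qv i) (hqp i) (hq1 i) (hur _ (hQSm i)) _ ?_
      intro x
      have h4 := hy.2 (qv i) (Finset.mem_union_right _
        (Finset.mem_image.2 ⟨i, Finset.mem_univ _, rfl⟩))
      refine h4 x ?_
      rw [hL'Q _ (hQSm i)]
      exact AddSubgroup.mem_top _
    refine (AddSubgroup.mem_bot).2 (h3 y ⟨?_, fun v hv => ?_⟩ hyQ)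
    · refine (mem_range_infl1_iff Sm _ hM'Sm.smooth y).2 fun v hv => ?_
      by_cases hvQ : v ∈ Finset.univ.image qv
      · obtain ⟨i, -, rfl⟩ := Finset.mem_image.1 hvQ
        rw [hyQ i]
        exact zero_mem _
      · exact (mem_range_infl1_iff _ _ hM'T.smooth y).1 hy.1 v
          (fun h => (Finset.mem_union.1 h).elim hv hvQ)
    · have h4 : loc1 (dualRho (cycloChar p) (adRho r0)) v y ∈ perp dat hMQ v (L' v) :=
        hy.2 v (Finset.mem_union_left _ hv)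
      rw [hL'Sm v hv] at h4
      exact h4
  rw [hdual, AddSubgroup.card_bot, mul_one] at hgw
  -- the product of the local terms
  have hprod : ∏ v ∈ Sm ∪ Finset.univ.image qv, Nat.card (L' v) ≤
      Nat.card (ResidueField 𝒪) ^ r * (Nat.card (ResidueField 𝒪) *
        ∏ v ∈ Sm ∪ Finset.univ.image qv, Nat.card (H0 (rv Dq (adRho r0) v))) := by
    rw [Finset.prod_union hdisj, Finset.prod_union hdisj]
    have hA : ∏ v ∈ Sm, Nat.card (L' v) ≤ Nat.card (ResidueField 𝒪) *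
        ∏ v ∈ Sm, Nat.card (H0 (rv Dq (adRho r0) v)) := by
      refine prod_card_le Sm (pPrime p) hpSm _ _ _ ?_ ?_
      · rw [hL'Sm _ hpSm]; exact hLp
      · intro v hv hvp
        rw [hL'Sm v hv]; exact hLq v hv hvp
    have hB : ∏ v ∈ Finset.univ.image qv, Nat.card (L' v) ≤ Nat.card (ResidueField 𝒪) ^ r *
        ∏ v ∈ Finset.univ.image qv, Nat.card (H0 (rv Dq (adRho r0) v)) := by
      have hc : (Finset.univ.image qv).card = r := by
        rw [Finset.card_image_of_injective _ hinj, Finset.card_univ, Fintype.card_fin]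
      have hpw : Nat.card (ResidueField 𝒪) ^ r =
          ∏ _v ∈ Finset.univ.image qv, Nat.card (ResidueField 𝒪) := by
        rw [Finset.prod_const, hc]
      rw [hpw, ← Finset.prod_mul_distrib]
      refine Finset.prod_le_prod (fun _ _ => Nat.zero_le _) fun v hv => ?_
      obtain ⟨i, -, rfl⟩ := Finset.mem_image.1 hv
      rw [hL'Q _ (hQSm i), Nat.card_congr AddSubgroup.topEquiv.toEquiv]
      exact (hTWa i).2
    calc _ ≤ (Nat.card (ResidueField 𝒪) * ∏ v ∈ Sm, Nat.card (H0 (rv Dq (adRho r0) v))) *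
          (Nat.card (ResidueField 𝒪) ^ r *
            ∏ v ∈ Finset.univ.image qv, Nat.card (H0 (rv Dq (adRho r0) v))) :=
          Nat.mul_le_mul hA hB
      _ = _ := by ring
  rw [hSel]
  refine ⟨hfinSel, ?_⟩
  have hpos : 0 < Nat.card (H1 (lvlS (Sm ∪ Finset.univ.image qv))
      (dualRho (cycloChar p) (adRho r0))) := Nat.card_pos
  refine Nat.le_of_mul_le_mul_right ?_ hpos
  calc _ ≤ Nat.card (Sha1S (Sm ∪ Finset.univ.image qv) (adRho r0)) *
        ∏ v ∈ Sm ∪ Finset.univ.image qv, Nat.card (L' v) := hgw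
    _ ≤ Nat.card (Sha1S (Sm ∪ Finset.univ.image qv) (adRho r0)) *
        (Nat.card (ResidueField 𝒪) ^ r * (Nat.card (ResidueField 𝒪) *
          ∏ v ∈ Sm ∪ Finset.univ.image qv, Nat.card (H0 (rv Dq (adRho r0) v)))) :=
        Nat.mul_le_mul_left _ hprod
    _ = Nat.card (ResidueField 𝒪) ^ r * (Nat.card (Sha1S (Sm ∪ Finset.univ.image qv) (adRho r0)) *
        Nat.card (ResidueField 𝒪) *
          ∏ v ∈ Sm ∪ Finset.univ.image qv, Nat.card (H0 (rv Dq (adRho r0) v))) := by ring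
    _ ≤ _ := Nat.mul_le_mul_left _ hstar


open Classical in
/-- **[NUM]** -/
theorem num (p : ℕ) [Fact p.Prime] (hp2 : p ≠ 2) (hp𝒪 : (p : 𝒪) ∈ maximalIdeal 𝒪)
    (ρbar : ResidualGaloisRep (ResidueField 𝒪))
    (habs : ρbar.IsAbsolutelyIrreducible)
    (hdet : (GaloisRepAdic.ofResidualGaloisRep ρbar).DetIsCyclotomic p)
    (hsplit : ∀ σ : Gal, ∃ α β : ResidueField 𝒪,
      LinearMap.charpoly (ρbar.ρ σ) = (X - C α) * (X - C β))
    (hTW : ∀ (K : Type) [Field K] [Algebra (ResidueField 𝒪) K] (G : Subgroup Gal), G.index = 2 →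
      ∀ V : Submodule K (ρbar.baseChange K).V,
        (∀ σ ∈ G, ∀ x ∈ V, (ρbar.baseChange K).ρ σ x ∈ V) → V = ⊥ ∨ V = ⊤)
    (r0 : Gal →* GL (Fin 2) (ResidueField 𝒪))
    (h0 : HasMatrixRes ρbar (fun σ => (r0 σ : M2 (ResidueField 𝒪))))
    (S : Finset ℕ) (Sm : Finset Nat.Primes) (hpSm : pPrime p ∈ Sm)
    (hSmS : ∀ v ∈ Sm, (v : ℕ) ∈ S)
    (hur : ∀ q : Nat.Primes, q ∉ Sm → ρbar.IsUnramifiedAt q)
    (L : LocCond (adRho r0)) (hLfin : ∀ v ∈ Sm, Finite (L v))
    (hLp : Nat.card (L (pPrime p)) ≤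
      Nat.card (ResidueField 𝒪) * Nat.card (H0 (rv Dq (adRho r0) (pPrime p))))
    (hLq : ∀ v ∈ Sm, v ≠ pPrime p → Nat.card (L v) ≤ Nat.card (H0 (rv Dq (adRho r0) v))) :
    ∃ r : ℕ, ∀ n : ℕ, ∃ qv : Fin r → Nat.Primes, Function.Injective qv ∧
      (∀ i, (qv i : ℕ) ∉ S ∧ p ^ (n + 1) ∣ (qv i : ℕ) - 1) ∧
      (∀ i, ∀ P : ValuationSubring (AlgebraicClosure ℚ), P.LiesOverPrime (qv i) →
        ∀ φ : Gal, P.IsFrobeniusAt φ (qv i) →
          ∃ α β : ResidueField 𝒪, α ≠ β ∧ LinearMap.charpoly (ρbar.ρ φ) = (X - C α) * (X - C β)) ∧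
      Finite (SelG (adRho r0) Sm (Sm ∪ Finset.univ.image qv) L) ∧
      Nat.card (SelG (adRho r0) Sm (Sm ∪ Finset.univ.image qv) L) ≤
        Nat.card (ResidueField 𝒪) ^ r := by
  haveI : CharP (ResidueField 𝒪) p := charP_res p hp𝒪
  have hMQ : FinMod p lvlQ (adRho r0) := finMod_adRho p h0
  obtain ⟨S₁, hS₁, hE⟩ := ec_star p hp2 hp𝒪 ρbar habs hdet r0 h0 Sm hpSm hur
  -- unramified conditions at the auxiliary primes
  let L₁ : LocCond (adRho r0) := fun v => if v ∈ Sm then L v else H1ur v (rv Dq (adRho r0) v)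
  have hL₁Sm : ∀ v ∈ Sm, L₁ v = L v := fun v hv => if_pos hv
  have hL₁' : ∀ v, v ∉ Sm → L₁ v = H1ur v (rv Dq (adRho r0) v) := fun v hv => if_neg hv
  haveI := hMQ.fin
  have hurc := fun v : Nat.Primes => Loc.card_H1ur_le v (rv Dq (adRho r0) v) (E.smooth_Dq hMQ.smooth v)
  obtain ⟨r, hr⟩ := num_aux p hp2 hp𝒪 ρbar habs hdet hsplit hTW r0 h0
    (S ∪ S₁.image (fun v : Nat.Primes => (v : ℕ))) S₁ (hS₁ hpSm)
    (fun v hv => Finset.mem_union_right _ (Finset.mem_image_of_mem _ hv))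
    (fun q hq => hur q fun h => hq (hS₁ h)) L₁
    (fun v _ => by
      by_cases hv : v ∈ Sm
      · rw [hL₁Sm v hv]; exact hLfin v hv
      · rw [hL₁' v hv]; exact (hurc v).1)
    (by rw [hL₁Sm _ hpSm]; exact hLp)
    (fun v _ hvp => by
      by_cases hv : v ∈ Sm
      · rw [hL₁Sm v hv]; exact hLq v hv hvp
      · rw [hL₁' v hv]; exact (hurc v).2)
    hE
  refine ⟨r, fun n => ?_⟩
  obtain ⟨qv, hinj, h1, h2, hfin, hcard⟩ := hr n
  have hle : SelG (adRho r0) Sm (Sm ∪ Finset.univ.image qv) L ≤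
      SelG (adRho r0) S₁ (S₁ ∪ Finset.univ.image qv) L₁ := by
    intro x hx
    have hsmA : Smooth (lvlS (Sm ∪ Finset.univ.image qv)) (adRho r0) :=
      (finMod_adRho_lvlS h0 hMQ _ fun q hq => hur q fun h => hq (Finset.mem_union_left _ h)).smooth
    have hsmB : Smooth (lvlS (S₁ ∪ Finset.univ.image qv)) (adRho r0) :=
      (finMod_adRho_lvlS h0 hMQ _
        fun q hq => hur q fun h => hq (Finset.mem_union_left _ (hS₁ h))).smooth
    have hx1 := (mem_range_infl1_iff _ _ hsmA x).1 hx.1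
    refine ⟨(mem_range_infl1_iff _ _ hsmB x).2 fun v hv => hx1 v fun h => hv ?_, fun v hv => ?_⟩
    · rcases Finset.mem_union.1 h with h | h
      · exact Finset.mem_union_left _ (hS₁ h)
      · exact Finset.mem_union_right _ h
    · by_cases hvS : v ∈ Sm
      · rw [hL₁Sm v hvS]; exact hx.2 v hvS
      · rw [hL₁' v hvS]
        refine hx1 v fun h => ?_
        rcases Finset.mem_union.1 h with h | h
        · exact hvS h
        · obtain ⟨i, -, rfl⟩ := Finset.mem_image.1 h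
          exact (h1 i).1 (Finset.mem_union_right _ (Finset.mem_image_of_mem _ hv))
  refine ⟨qv, hinj, fun i => ⟨fun h => (h1 i).1 (Finset.mem_union_left _ h), (h1 i).2⟩, h2, ?_, ?_⟩
  · exact Finite.of_injective (AddSubgroup.inclusion hle) (AddSubgroup.inclusion_injective hle)
  · exact (Nat.card_le_card_of_injective (AddSubgroup.inclusion hle)
      (AddSubgroup.inclusion_injective hle)).trans hcard

end Fermat.Agent.S56
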