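import Fermat.Agent.S56.IfTan
import Fermat.Agent.S56.IfLoc
import Fermat.Agent.S56.IfNum
import Fermat.Agent.S56.DictS

/-!
# S56 / Half : one half of the statement, for an abstract condition `Cp` at `p`      (helper28)
-/

set_option autoImplicit false

open IsLocalRing Polynomial Fermat.Agent.S53 Fermat.Agent.S55 ExtCitation

noncomputable section

namespace Fermat.Agent.S56

variable {𝒪 : Type} [CommRing 𝒪] [IsDomain 𝒪] [IsDiscreteValuationRing 𝒪]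
  [IsAdicComplete (maximalIdeal 𝒪) 𝒪] [Finite (ResidueField 𝒪)]

theorem half (p : ℕ) [Fact p.Prime] (hp2 : p ≠ 2) (hp𝒪 : (p : 𝒪) ∈ maximalIdeal 𝒪)
    (ρbar : ResidualGaloisRep (ResidueField 𝒪))
    (habs : ρbar.IsAbsolutelyIrreducible)
    (hdet : (GaloisRepAdic.ofResidualGaloisRep ρbar).DetIsCyclotomic p)
    (hsplit : ∀ σ : Gal, ∃ α β : ResidueField 𝒪,
      LinearMap.charpoly (ρbar.ρ σ) = (X - C α) * (X - C β))
    (hTW : ∀ (K : Type) [Field K] [Algebra (ResidueField 𝒪) K] (G : Subgroup Gal), G.index = 2 →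
      ∀ V : Submodule K (ρbar.baseChange K).V,
        (∀ σ ∈ G, ∀ x ∈ V, (ρbar.baseChange K).ρ σ x ∈ V) → V = ⊥ ∨ V = ⊤)
    (S Smin : Finset ℕ) (hpSmin : p ∈ Smin) (hSmin : Smin ⊆ S) (hS : ∀ q ∈ S, q.Prime)
    (hmin : ∀ q : ℕ, q.Prime → q ≠ p → (q ∈ Smin ↔ ¬ ρbar.IsUnramifiedAt q))
    (Cp : ∀ ⦃A : Type⦄ [CommRing A] [IsLocalRing A], GaloisRepAdic A → Prop)
    (hbcp : ∀ {A B : Type} [CommRing A] [IsLocalRing A] [CommRing B] [IsLocalRing B]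
      (φ : A →+* B) (hφ : IsLocalHom φ), Function.Surjective φ → ∀ {ρ : GaloisRepAdic A},
      Cp ρ → Cp (ρ.baseChangeAlong φ hφ))
    (hLp : ∀ r0 : Gal →* GL (Fin 2) (ResidueField 𝒪),
      HasMatrixRes ρbar (fun σ => (r0 σ : M2 (ResidueField 𝒪))) →
      ∃ L : AddSubgroup (H1 (lvlD (pPrime p)) (rv Dq (adRho r0) (pPrime p))), Finite L ∧
        Nat.card L ≤ Nat.card (ResidueField 𝒪) * Nat.card (H0 (rv Dq (adRho r0) (pPrime p))) ∧
        ∀ (c : ↥(Z1 lvlQ (adRho r0))) (ρ : GaloisRepAdic (Keps 𝒪)),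
          HasMatrix ρ (liftMat r0 (c : Gal → Ad0 (ResidueField 𝒪))) → ρ.DetIsCyclotomic p →
          Cp ρ → loc1 (adRho r0) (pPrime p) (H1.mk lvlQ (adRho r0) c) ∈ L) :
    ∃ r : ℕ, ∀ n : ℕ, ∃ qv : Fin r → ℕ, Function.Injective qv ∧
      (∀ i, (qv i).Prime ∧ qv i ∉ S ∧ p ^ (n + 1) ∣ qv i - 1) ∧
      (∀ i, ∀ P : ValuationSubring (AlgebraicClosure ℚ), P.LiesOverPrime (qv i) →
        ∀ φ : AlgebraicClosure ℚ ≃ₐ[ℚ] AlgebraicClosure ℚ, P.IsFrobeniusAt φ (qv i) →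
          ∃ α β : ResidueField 𝒪, α ≠ β ∧ LinearMap.charpoly (ρbar.ρ φ) = (X - C α) * (X - C β)) ∧
      ∀ DQ : GaloisRep.DeformationRingData 𝒪 ρbar (fun _A _ _ _ ρ =>
          (ρ.DetIsCyclotomic p ∧ Cp ρ ∧
            ∀ q : ℕ, q.Prime → q ∉ (Smin ∪ Finset.univ.image qv) → ρ.IsUnramifiedAt q) ∧
            ∀ q ∈ Smin, q.Prime → q ≠ p → ρ.IsUnipotentOnInertiaAt q),
        ∃ γ : MvPowerSeries (Fin r) 𝒪 →ₐ[𝒪] DQ.R, Function.Surjective γ := by
  classical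
  obtain ⟨r0, h0⟩ := exists_resMat ρbar
  -- the set `Smin` as a set of primes
  let Sm : Finset Nat.Primes := Finset.subtype Nat.Prime Smin
  have hmemSm : ∀ v : Nat.Primes, v ∈ Sm ↔ (v : ℕ) ∈ Smin := fun v => Finset.mem_subtype
  have hpSm : pPrime p ∈ Sm := (hmemSm _).2 hpSmin
  -- the local conditions
  obtain ⟨Lp, hLpfin, hLpcard, hLpmem⟩ := hLp r0 h0
  have hLq : ∀ v : Nat.Primes, ∃ L : AddSubgroup (H1 (lvlD v) (rv Dq (adRho r0) v)),
      (v ∈ Sm → v ≠ pPrime p → Finite L ∧ Nat.card L ≤ Nat.card (H0 (rv Dq (adRho r0) v)) ∧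
      ∀ (c : ↥(Z1 lvlQ (adRho r0))) (ρ : GaloisRepAdic (Keps 𝒪)),
        HasMatrix ρ (liftMat r0 (c : Gal → Ad0 (ResidueField 𝒪))) → ρ.DetIsCyclotomic p →
        ρ.IsUnipotentOnInertiaAt v → loc1 (adRho r0) v (H1.mk lvlQ (adRho r0) c) ∈ L) := by
    intro v
    by_cases hv : v ∈ Sm ∧ v ≠ pPrime p
    · have hvp : (v : ℕ) ≠ p := fun h => hv.2 (Subtype.ext h)
      obtain ⟨L, h1, h2, h3⟩ := exists_Lq p hp2 hp𝒪 r0 h0 v hvp
        ((hmin v v.2 hvp).1 ((hmemSm v).1 hv.1))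
      exact ⟨L, fun _ _ => ⟨h1, h2, h3⟩⟩
    · exact ⟨⊥, fun h1 h2 => absurd ⟨h1, h2⟩ hv⟩
  choose Lq hLq using hLq
  let L : LocCond (adRho r0) := fun v =>
    if h : v = pPrime p then h ▸ Lp else Lq v
  have hLpp : L (pPrime p) = Lp := by
    simp only [L, dif_pos]
  have hLne : ∀ v, v ≠ pPrime p → L v = Lq v := fun v hv => by
    simp only [L, dif_neg hv]
  obtain ⟨r, hr⟩ := num p hp2 hp𝒪 ρbar habs hdet hsplit hTW r0 h0 S Sm hpSm
    (fun v hv => hSmin ((hmemSm v).1 hv))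
    (fun q hq => by
      have hqp : (q : ℕ) ≠ p := fun h => hq (by
        have : q = pPrime p := Subtype.ext h
        rw [this]; exact hpSm)
      by_contra hcon
      exact hq ((hmemSm q).2 ((hmin q q.2 hqp).2 hcon)))
    L
    (fun v hv => by
      by_cases hvp : v = pPrime p
      · subst hvp
        rw [hLpp]; exact hLpfin
      · rw [hLne v hvp]; exact (hLq v hv hvp).1)
    (by rw [hLpp]; exact hLpcard)
    (fun v hv hvp => by rw [hLne v hvp]; exact (hLq v hv hvp).2.1)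
  refine ⟨r, fun n => ?_⟩
  obtain ⟨qv, hinj, h1, h2, hfin, hcard⟩ := hr n
  refine ⟨fun i => (qv i : ℕ), fun i j hij => hinj (Subtype.ext hij),
    fun i => ⟨(qv i).2, (h1 i).1, (h1 i).2⟩, h2, fun DQ => ?_⟩
  haveI := hfin
  refine tan_main p hp𝒪 DQ DQ.isOfType.1.1 ?_ r0 h0 r
    (SelG (adRho r0) Sm (Sm ∪ Finset.univ.image qv) L) ?_ hcard
  · intro φ hφ hsurj
    exact ⟨⟨bc_det _ hφ DQ.isOfType.1.1, hbcp _ hφ hsurj DQ.isOfType.1.2.1,
      fun q hq hqT => bc_unram _ hφ (DQ.isOfType.1.2.2 q hq hqT)⟩,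
      fun q hq hq' hqp => bc_unip _ hφ (DQ.isOfType.2 q hq hq' hqp)⟩
  · rintro c ⟨ρ, hρ, ⟨hd, hC, hunr⟩, hunip⟩
    refine ⟨mem_range_infl1_of_unram _ c ρ hρ ?_, ?_⟩
    · intro q hq
      refine hunr q q.2 ?_
      intro hmem
      apply hq
      rcases Finset.mem_union.1 hmem with h | h
      · exact Finset.mem_union_left _ ((hmemSm q).2 h)
      · obtain ⟨i, -, hi⟩ := Finset.mem_image.1 h
        exact Finset.mem_union_right _ (Finset.mem_image.2 ⟨i, Finset.mem_univ _, Subtype.ext hi⟩)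
    · intro v hv
      by_cases hvp : v = pPrime p
      · subst hvp
        rw [hLpp]
        exact hLpmem c ρ hρ hd hC
      · rw [hLne v hvp]
        exact (hLq v hv hvp).2.2 c ρ hρ hd
          (hunip v ((hmemSm v).1 hv) v.2 (fun h => hvp (Subtype.ext h)))

end Fermat.Agent.S56
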