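import Fermat.Agent.S56.FK.Core
import Fermat.Agent.S56.FK.Conj

/-!
# S56 / FLAT / FK : interface          (owner helper3)

`fk_main` : `r0` smooth, `det = ω`, split characteristic polynomials, NO `D_p`-stable line (`Irr p r0`).  Then the classes in `H¹(D_p, ad⁰)` having a cocycle representative `c` with
`KumCond p π ζ (ext0 p c)` (all `σ ↦ l (c σ *ᵥ x)`, `σ ∈ J = I_F`, are Kummer characters of elements of `1 + p O_F`) form a subgroup `LK` with at most `#k` elements.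
-/

set_option autoImplicit false

noncomputable section

namespace Fermat.Agent.S56.FK

open Fermat.Agent.S05 Fermat.Agent.S55 Fermat.Agent.S55.B ExtCitation Polynomial
open Fermat.Agent.S53 (M2)

variable {p : Nat.Primes} {π ζ : Qb} {k : Type} [Field k]

theorem exists_TD (hp2 : (p : ℕ) ≠ 2) : ∃ π ζ : Qb, TD p π ζ := by
  obtain ⟨π, hπ⟩ := IsAlgClosed.exists_pow_nat_eq (-((p : ℕ) : Qb)) (ee_pos (p := p))
  obtain ⟨ζ, hζ⟩ := Fermat.Agent.S33.cycAux_exists_prim p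
  exact ⟨π, ζ, hπ, hζ, hp2⟩

theorem fk_bd [Finite k] [CharP k (p : ℕ)] (hT : TD p π ζ)
    (r0 : GQ →* GL (Fin 2) k) (hsm : IsSm r0) (hdet : IsCycDet (p : ℕ) r0)
    (hsplit : ∀ σ : GQ, ∃ α β : k, (r0 σ : M2 k).charpoly = (X - C α) * (X - C β))
    (hirr : Irr p r0) : Bd p π ζ r0 := by
  letI : Algebra (ZMod (p : ℕ)) k := ZMod.algebra k (p : ℕ)
  obtain ⟨g, τ0, φ, ξ0, hA⟩ := exists_adapted hT r0 hsm hdet hsplit hirr
  exact bd_of_conj g (fun X hX => core hT hA X hX)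

theorem ext0_add (c c' : ↥(Dq p) → M0 k) :
    ext0 p (c + c') = fun σ => ext0 p c σ + ext0 p c' σ := by
  funext σ
  by_cases h : σ ∈ Dq p
  · simp only [ext0_of_mem p _ h]
    rfl
  · simp [ext0, h]

theorem ext0_neg (c : ↥(Dq p) → M0 k) : ext0 p (-c) = fun σ => - ext0 p c σ := by
  funext σ
  by_cases h : σ ∈ Dq p
  · simp only [ext0_of_mem p _ h]
    rfl
  · simp [ext0, h]

theorem ext0_zero : ext0 p (0 : ↥(Dq p) → M0 k) = fun _ => 0 := by
  funext σ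
  by_cases h : σ ∈ Dq p
  · simp only [ext0_of_mem p _ h]
    rfl
  · simp [ext0, h]

/-- the cocycles satisfying the Kummer condition -/
def YK (hT : TD p π ζ) (r0 : GQ →* GL (Fin 2) k) : AddSubgroup ↥(Z1 (lvlD p) (adRhoD r0 p)) where
  carrier := {c | KumCond p π ζ (ext0 p (c : ↥(Dq p) → M0 k))}
  add_mem' := by
    intro a b ha hb
    show KumCond p π ζ (ext0 p ((a : ↥(Dq p) → M0 k) + (b : ↥(Dq p) → M0 k)))
    rw [ext0_add]
    exact KumCond.add hT ha hb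
  zero_mem' := by
    show KumCond p π ζ (ext0 p (0 : ↥(Dq p) → M0 k))
    rw [ext0_zero]
    exact KumCond.zero
  neg_mem' := by
    intro a ha
    show KumCond p π ζ (ext0 p (-(a : ↥(Dq p) → M0 k)))
    rw [ext0_neg]
    exact KumCond.neg hT ha

/-- the subgroup of `H¹(D_p, ad⁰)` cut out by the Kummer condition -/
def LK (hT : TD p π ζ) (r0 : GQ →* GL (Fin 2) k) : AddSubgroup (H1 (lvlD p) (adRhoD r0 p)) :=
  (YK hT r0).map (H1.mk _ _)

theorem mem_LK (hT : TD p π ζ) (r0 : GQ →* GL (Fin 2) k) (c : ↥(Z1 (lvlD p) (adRhoD r0 p)))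
    (hc : KumCond p π ζ (ext0 p (c : ↥(Dq p) → M0 k))) : H1.mk _ _ c ∈ LK hT r0 :=
  ⟨c, hc, rfl⟩

theorem fk_main [Finite k] [CharP k (p : ℕ)] (hT : TD p π ζ)
    (r0 : GQ →* GL (Fin 2) k) (hsm : IsSm r0) (hdet : IsCycDet (p : ℕ) r0)
    (hsplit : ∀ σ : GQ, ∃ α β : k, (r0 σ : M2 k).charpoly = (X - C α) * (X - C β))
    (hirr : Irr p r0) : Finite (LK hT r0) ∧ Nat.card (LK hT r0) ≤ Nat.card k := by
  have h := fk_bd hT r0 hsm hdet hsplit hirr (LK hT r0 : Set _) (by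
    rintro x ⟨c, hc, rfl⟩
    exact ⟨c, rfl, hc⟩)
  exact ⟨h.1, h.2⟩

end Fermat.Agent.S56.FK
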