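import Fermat.Agent.S56.Tan.Defs
import Fermat.Agent.S55.D.Main

/-!
# S56 / Sel : Selmer groups in the S55 formalism      (helper28, TOP + GW owner)

`ρ : GQ →* AddMonoid.End A` any coefficient module, `L v ≤ H¹(D_v, A)` local conditions (only the `v ∈ Sm` matter),
`SelG ρ Sm T L ≤ H¹(G_ℚ, A)` : classes coming from `H¹(lvlS T)` (= unramified outside `T`), lying in `L v` at all `v ∈ Sm`.
In the applications `Sm ⊆ T`; `T = Sm` (minimal Selmer group) or `T = Sm ∪ Q` (no condition at the Taylor-Wiles primes `Q`).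
-/

set_option autoImplicit false

open Fermat.Agent.S53 Fermat.Agent.S55 ExtCitation

noncomputable section

namespace Fermat.Agent.S56

/-- families of local conditions -/
abbrev LocCond {A : Type*} [AddCommGroup A] (ρ : GQ →* AddMonoid.End A) : Type _ :=
  ∀ v : Nat.Primes, AddSubgroup (H1 (lvlD v) (rv Dq ρ v))

/-- the Selmer group -/
def SelG {A : Type*} [AddCommGroup A] (ρ : GQ →* AddMonoid.End A) (Sm T : Finset Nat.Primes)
    (L : LocCond ρ) : AddSubgroup (H1 lvlQ ρ) where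
  carrier := {x | x ∈ (infl1 T ρ).range ∧ ∀ v ∈ Sm, loc1 ρ v x ∈ L v}
  add_mem' := fun ha hb => ⟨add_mem ha.1 hb.1, fun v hv => by
    rw [map_add]; exact add_mem (ha.2 v hv) (hb.2 v hv)⟩
  zero_mem' := ⟨zero_mem _, fun v _ => by rw [map_zero]; exact zero_mem _⟩
  neg_mem' := fun ha => ⟨neg_mem ha.1, fun v hv => by rw [map_neg]; exact neg_mem (ha.2 v hv)⟩

theorem mem_SelG {A : Type*} [AddCommGroup A] {ρ : GQ →* AddMonoid.End A}
    {Sm T : Finset Nat.Primes} {L : LocCond ρ} {x : H1 lvlQ ρ} :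
    x ∈ SelG ρ Sm T L ↔ x ∈ (infl1 T ρ).range ∧ ∀ v ∈ Sm, loc1 ρ v x ∈ L v := Iff.rfl

end Fermat.Agent.S56
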