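import Fermat.Agent.S56.Tan.Main
import Fermat.Agent.S56.Tan.BCOrd
import Fermat.Agent.S56.Tan.BCFlat
import Fermat.Agent.S56.Tan.Dict
import Fermat.Agent.S56.Tan.DictOrd

/-!
# S56 / TAN + Selmer dictionary : interface      (block owner helper21)

`k = ResidueField 𝒪`, `r0 : Gal →* GL (Fin 2) k` a matrix form of `ρbar`, `M = Ad0 k` (trace zero matrices) with `adRho r0`;
cohomology = the S55 formalism (`H1 lvlQ (adRho r0)`, `Dq q`, `Iq q`, `loc1`).  ns `Fermat.Agent.S56`.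

EXPORTS (import this file)
* `Tan/Defs.lean`   : `ad0`, `Ad0`, `adRho`, `coe_adRho`, `kmk`, `kmat`, `liftMat r0 c σ = (1 + ε c σ) r0 σ`, `IsType 𝒟 r0 c`.
* `Tan/Kmat.lean`   : calculus in `k[ε]`, `M₂(k[ε])` (`kmat_mul`, `kmat_inj`, `kmat_det_lift`, `kunit`, `exists_kunit`, ...).
* `Tan/Res.lean`    : `exists_resMat`, `exists_level`, `finMod_adRho`.
* `Tan/Main.lean`   : `tan_main` : if the classes of all cocycles `c` whose lift is of type `𝒟` lie in a finite subgroup `Sel ≤ H¹(G_ℚ, ad⁰)` with `#Sel ≤ #k ^ r`, then `𝒪⟦X₁..X_r⟧ ↠ DQ.R`.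
* `Tan/BC*.lean`    : `bc_det`, `bc_unram`, `bc_unip`, `bc_strictOrd`, `bc_flat` (hypothesis `hbc` of `tan_main`).
* `Tan/Dict*.lean`  : `dict_unram`, `dict_unip`, `dict_strictOrd` : what "the lift of `c` is of type `𝒟`" means for `c`.
-/
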